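import Mathlib

/-!
# Row S31, piece D3 (helper924): membership in `I ^ k` from membership in high prime powers

In a Dedekind domain `R`, for a nonzero ideal `I` there is `e` such that for all `k` and `x`:
if `x ∈ P ^ (e * k)` for every prime `P ⊇ I`, then `x ∈ I ^ k`.
Number-field form: `x ∈ 𝔓 ^ (e k)` for all `𝔓 ∣ p`  ⟹  `p ^ k ∣ x` in `𝓞 K`.
-/

set_option autoImplicit false

open Ideal UniqueFactorizationMonoid

namespace Fermat.Agent.S31.H924

/-- **D3** (Dedekind form, explicit exponent): with `e` the number of prime factors of `I`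
(counted with multiplicity), `x ∈ P ^ (e * k)` for all primes `P ⊇ I` implies `x ∈ I ^ k`. -/
theorem mem_pow_of_forall_mem_prime_pow {R : Type*} [CommRing R] [IsDedekindDomain R]
    {I : Ideal R} (hI : I ≠ ⊥) (k : ℕ) (x : R)
    (h : ∀ P : Ideal R, P.IsPrime → I ≤ P →
      x ∈ P ^ (Multiset.card (normalizedFactors I) * k)) :
    x ∈ I ^ k := by
  classical
  set s := normalizedFactors I with hs
  have hprod : I ^ k = ∏ P ∈ s.toFinset, P ^ (Multiset.count P s * k) := by
    conv_lhs => rw [← Ideal.prod_normalizedFactors_eq_self hI, ← hs, Finset.prod_multiset_count,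
      ← Finset.prod_pow]
    exact Finset.prod_congr rfl fun P _ => (pow_mul _ _ _).symm
  rw [hprod, ← IsDedekindDomain.inf_pow_eq_prod_of_prime s.toFinset (fun P => P)
    (fun P => Multiset.count P s * k)
    (fun P hP => prime_of_normalized_factor P (Multiset.mem_toFinset.mp hP))
    (fun P _ Q _ hPQ => hPQ)]
  rw [Submodule.mem_finsetInf]
  intro P hP
  have hPs : P ∈ s := Multiset.mem_toFinset.mp hP
  have hprime : P.IsPrime := Ideal.isPrime_of_prime (prime_of_normalized_factor P hPs)
  have hle : I ≤ P := Ideal.dvd_iff_le.mp (dvd_of_mem_normalizedFactors hPs)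
  exact Ideal.pow_le_pow_right (Nat.mul_le_mul_right k (Multiset.count_le_card P s))
    (h P hprime hle)

/-- **D3** (Dedekind form). -/
theorem exists_forall_mem_pow {R : Type*} [CommRing R] [IsDedekindDomain R]
    {I : Ideal R} (hI : I ≠ ⊥) :
    ∃ e : ℕ, ∀ (k : ℕ) (x : R),
      (∀ P : Ideal R, P.IsPrime → I ≤ P → x ∈ P ^ (e * k)) → x ∈ I ^ k :=
  ⟨_, fun k x h => mem_pow_of_forall_mem_prime_pow hI k x h⟩

/-- **D3** (element form): for `a ≠ 0` in a Dedekind domain there is `e` such that
`x ∈ P ^ (e * k)` for all primes `P ∋ a` implies `a ^ k ∣ x`. -/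
theorem exists_forall_pow_dvd {R : Type*} [CommRing R] [IsDedekindDomain R]
    {a : R} (ha : a ≠ 0) :
    ∃ e : ℕ, ∀ (k : ℕ) (x : R),
      (∀ P : Ideal R, P.IsPrime → a ∈ P → x ∈ P ^ (e * k)) → a ^ k ∣ x := by
  have hI : Ideal.span {a} ≠ ⊥ := by
    rwa [Ne, Ideal.span_singleton_eq_bot]
  obtain ⟨e, he⟩ := exists_forall_mem_pow hI
  refine ⟨e, fun k x h => ?_⟩
  have := he k x fun P hP hle => h P hP (hle (Ideal.mem_span_singleton_self a))
  rwa [Ideal.span_singleton_pow, Ideal.mem_span_singleton] at this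

/-- **D3** (number-field form): `x ∈ 𝔓 ^ (e k)` for all primes `𝔓` of `𝓞 K` over `p` implies
`p ^ k ∣ x`. -/
theorem exists_forall_natCast_pow_dvd (K : Type*) [Field K] [NumberField K] (p : ℕ)
    (hp : p ≠ 0) :
    ∃ e : ℕ, ∀ (k : ℕ) (x : NumberField.RingOfIntegers K),
      (∀ P : Ideal (NumberField.RingOfIntegers K), P.IsPrime →
        (p : NumberField.RingOfIntegers K) ∈ P → x ∈ P ^ (e * k)) →
      (p : NumberField.RingOfIntegers K) ^ k ∣ x :=
  exists_forall_pow_dvd (by exact_mod_cast hp)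

/-- **D3** (number-field form, height-one primes). -/
theorem exists_forall_natCast_pow_dvd' (K : Type*) [Field K] [NumberField K] (p : ℕ)
    (hp : p ≠ 0) :
    ∃ e : ℕ, ∀ (k : ℕ) (x : NumberField.RingOfIntegers K),
      (∀ v : IsDedekindDomain.HeightOneSpectrum (NumberField.RingOfIntegers K),
        (p : NumberField.RingOfIntegers K) ∈ v.asIdeal → x ∈ v.asIdeal ^ (e * k)) →
      (p : NumberField.RingOfIntegers K) ^ k ∣ x := by
  obtain ⟨e, he⟩ := exists_forall_natCast_pow_dvd K p hp
  refine ⟨e, fun k x h => he k x fun P hP hpP => ?_⟩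
  have hP0 : P ≠ ⊥ := by
    rintro rfl
    have : (p : NumberField.RingOfIntegers K) = 0 := by simpa using hpP
    exact hp (by exact_mod_cast this)
  exact h ⟨P, hP, hP0⟩ hpP

end Fermat.Agent.S31.H924
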